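import Mathlib
import Fermat.Prelude.Def_FLTPrelim_FreyPackage
import Fermat.Prelude.Def_FLTPrelim_Modularity
import Fermat.Prelude.Def_FLTPrelim_ModularRep
import Fermat.Prelude.Def_FreyPackage_IsConductorLevel
import Fermat.Prelude.Def_WeierstrassCurve_Mlc1RowStatement

set_option autoImplicit false
open WeierstrassCurve WeierstrassCurve.Affine WeierstrassCurve.Affine.Point
open CuspForm ModularFormClass UpperHalfPlane
open FreyPackage

namespace Fermat.Agent.S06.FreyModel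

theorem two_dvd_b (P : FreyPackage) : (2 : ℤ) ∣ P.b :=
  (ZMod.intCast_zmod_eq_zero_iff_dvd P.b 2).1 P.hb2

theorem thirtytwo_dvd_bpow (P : FreyPackage) : (32 : ℤ) ∣ P.b ^ P.p := by
  obtain ⟨k, hk⟩ := two_dvd_b P
  have h5 := P.hp5
  obtain ⟨m, hm⟩ := Nat.exists_eq_add_of_le h5
  rw [hk, hm, mul_pow, pow_add]
  exact Dvd.dvd.mul_right (Dvd.dvd.mul_right (by norm_num) _) _

theorem four_dvd_apow_sub_three (P : FreyPackage) : (4 : ℤ) ∣ P.a ^ P.p - 3 := by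
  have h1 : (4 : ℤ) ∣ P.a - 3 := by
    have := P.ha4
    have h3 : ((P.a - 3 : ℤ) : ZMod 4) = 0 := by
      push_cast; rw [this]; decide
    exact (ZMod.intCast_zmod_eq_zero_iff_dvd _ 4).1 h3
  have h2 : (4 : ℤ) ∣ P.a - (-1) := by
    obtain ⟨k, hk⟩ := h1
    exact ⟨k + 1, by linarith⟩
  have h3 : (4 : ℤ) ∣ P.a ^ P.p - (-1) ^ P.p := h2.trans (sub_dvd_pow_sub_pow _ _ _)
  rw [P.hp_odd.neg_one_pow] at h3
  obtain ⟨k, hk⟩ := h3
  exact ⟨k - 1, by linarith⟩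

theorem four_dvd_a2 (P : FreyPackage) : (4 : ℤ) ∣ P.b ^ P.p - 1 - P.a ^ P.p := by
  obtain ⟨k, hk⟩ := thirtytwo_dvd_bpow P
  obtain ⟨m, hm⟩ := four_dvd_apow_sub_three P
  exact ⟨8 * k - 1 - m, by linarith⟩

theorem sixteen_dvd_a4 (P : FreyPackage) : (16 : ℤ) ∣ -(P.a ^ P.p) * (P.b ^ P.p) := by
  obtain ⟨k, hk⟩ := thirtytwo_dvd_bpow P
  exact ⟨-(P.a ^ P.p) * (2 * k), by rw [hk]; ring⟩

/-- The integral Frey model base-changes to the rational Frey curve. -/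
theorem freyCurveInt_map (P : FreyPackage) :
    P.freyCurveInt.map (Int.castRingHom ℚ) = P.freyCurve := by
  ext
  · simp [freyCurveInt, freyCurve]
  · simp only [freyCurveInt, freyCurve, WeierstrassCurve.map, eq_intCast]
    rw [Int.cast_div (four_dvd_a2 P) (by norm_num)]
    push_cast; rfl
  · simp [freyCurveInt, freyCurve]
  · simp only [freyCurveInt, freyCurve, WeierstrassCurve.map, eq_intCast]
    rw [Int.cast_div (sixteen_dvd_a4 P) (by norm_num)]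
    push_cast; rfl
  · simp [freyCurveInt, freyCurve]

theorem freyCurveInt_isIntegralModelOf (P : FreyPackage) :
    P.freyCurveInt.IsIntegralModelOf P.freyCurve :=
  ⟨1, by rw [one_smul, freyCurveInt_map]⟩

/-- The integers `A = a₂`, `B = a₄` of the integral Frey model. -/
theorem freyCurveInt_coeffs (P : FreyPackage) :
    ∃ A B : ℤ, 4 * A = P.b ^ P.p - 1 - P.a ^ P.p ∧ 16 * B = -(P.a ^ P.p) * (P.b ^ P.p) ∧
      P.freyCurveInt.a₁ = 1 ∧ P.freyCurveInt.a₂ = A ∧ P.freyCurveInt.a₃ = 0 ∧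
      P.freyCurveInt.a₄ = B ∧ P.freyCurveInt.a₆ = 0 := by
  obtain ⟨A, hA⟩ := four_dvd_a2 P
  obtain ⟨B, hB⟩ := sixteen_dvd_a4 P
  refine ⟨A, B, hA.symm, hB.symm, rfl, ?_, rfl, ?_, rfl⟩
  · change (P.b ^ P.p - 1 - P.a ^ P.p) / 4 = A
    rw [hA]; exact Int.mul_ediv_cancel_left _ (by norm_num)
  · change -(P.a ^ P.p) * (P.b ^ P.p) / 16 = B
    rw [hB]; exact Int.mul_ediv_cancel_left _ (by norm_num)

/-- `2^8 Δ = (abc)^{2p}`. -/
theorem freyCurveInt_disc (P : FreyPackage) :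
    256 * P.freyCurveInt.Δ = (P.a * P.b * P.c) ^ (2 * P.p) := by
  obtain ⟨A, B, hA, hB, h1, h2, h3, h4, h6⟩ := freyCurveInt_coeffs P
  have hc : P.c ^ P.p = P.a ^ P.p + P.b ^ P.p := P.hFLT.symm
  have hΔ : P.freyCurveInt.Δ = B ^ 2 * ((1 + 4 * A) ^ 2 - 64 * B) := by
    simp only [WeierstrassCurve.Δ, WeierstrassCurve.b₂, WeierstrassCurve.b₄, WeierstrassCurve.b₆,
      WeierstrassCurve.b₈, h1, h2, h3, h4, h6]
    ring
  rw [hΔ]
  have e1 : (1 + 4 * A) = P.b ^ P.p - P.a ^ P.p := by linarith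
  have e2 : 64 * B = - 4 * (P.a ^ P.p * P.b ^ P.p) := by linarith
  rw [e1, e2, mul_pow, mul_pow, pow_mul', pow_mul', pow_mul', hc]
  have e3 : 256 * B ^ 2 = (P.a ^ P.p * P.b ^ P.p) ^ 2 := by
    have : (16 * B) ^ 2 = (-(P.a ^ P.p) * (P.b ^ P.p)) ^ 2 := by rw [hB]
    linarith [this]
  linear_combination ((P.b ^ P.p - P.a ^ P.p) ^ 2 - -4 * (P.a ^ P.p * P.b ^ P.p)) * e3

theorem freyCurveInt_disc_ne_zero (P : FreyPackage) : P.freyCurveInt.Δ ≠ 0 := by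
  intro h
  have h1 := freyCurveInt_disc P
  rw [h, mul_zero] at h1
  exact pow_ne_zero _ P.habc0 h1.symm

/-- `c₄ = a^{2p} + a^p b^p + b^{2p}`. -/
theorem freyCurveInt_c4 (P : FreyPackage) :
    P.freyCurveInt.c₄ = (P.a ^ P.p) ^ 2 + P.a ^ P.p * P.b ^ P.p + (P.b ^ P.p) ^ 2 := by
  obtain ⟨A, B, hA, hB, h1, h2, h3, h4, h6⟩ := freyCurveInt_coeffs P
  simp only [WeierstrassCurve.c₄, WeierstrassCurve.b₂, WeierstrassCurve.b₄, h1, h2, h3, h4]
  have e1 : (1 + 4 * A) = P.b ^ P.p - P.a ^ P.p := by linarith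
  linear_combination (1 + 4 * A + P.b ^ P.p - P.a ^ P.p) * e1 - 3 * hB

/-- Every bad prime of the integral Frey model divides `abc`. -/
theorem freyCurveInt_bad (P : FreyPackage) (q : ℕ) (hq : q.Prime)
    (h : (q : ℤ) ∣ P.freyCurveInt.Δ) : (q : ℤ) ∣ P.a * P.b * P.c := by
  have h1 : (q : ℤ) ∣ (P.a * P.b * P.c) ^ (2 * P.p) := by
    rw [← freyCurveInt_disc]; exact Dvd.dvd.mul_left h _
  exact (Nat.prime_iff_prime_int.mp hq).dvd_of_dvd_pow h1

theorem not_dvd_of_gcd_eq_one {x y : ℤ} (h : gcd x y = 1) {q : ℕ} (hq : q.Prime)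
    (hx : (q : ℤ) ∣ x) (hy : (q : ℤ) ∣ y) : False := by
  have h1 : (q : ℤ) ∣ gcd x y := dvd_gcd hx hy
  rw [h] at h1
  have h2 : IsUnit (q : ℤ) := isUnit_of_dvd_one h1
  exact (Nat.prime_iff_prime_int.mp hq).not_isUnit h2

/-- The integral Frey model is semistable. -/
theorem freyCurveInt_semistable (P : FreyPackage) : P.freyCurveInt.IsSemistableModel := by
  intro q hq hΔ hc4
  have hq' := Nat.prime_iff_prime_int.mp hq
  rw [freyCurveInt_c4] at hc4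
  have habc := freyCurveInt_bad P q hq hΔ
  rcases hq'.dvd_or_dvd habc with hab | hc
  · rcases hq'.dvd_or_dvd hab with ha | hb
    · have ha' : (q : ℤ) ∣ P.a ^ P.p := dvd_pow ha P.hp0
      have : (q : ℤ) ∣ (P.b ^ P.p) ^ 2 := by
        have h2 : (q : ℤ) ∣ (P.a ^ P.p) ^ 2 + P.a ^ P.p * P.b ^ P.p :=
          dvd_add (dvd_pow ha' two_ne_zero) (Dvd.dvd.mul_right ha' _)
        exact (dvd_add_right h2).mp hc4
      exact not_dvd_of_gcd_eq_one P.hgcdab hq ha (hq'.dvd_of_dvd_pow (hq'.dvd_of_dvd_pow this))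
    · have hb' : (q : ℤ) ∣ P.b ^ P.p := dvd_pow hb P.hp0
      have : (q : ℤ) ∣ (P.a ^ P.p) ^ 2 := by
        have h2 : (q : ℤ) ∣ P.a ^ P.p * P.b ^ P.p + (P.b ^ P.p) ^ 2 :=
          dvd_add (Dvd.dvd.mul_left hb' _) (dvd_pow hb' two_ne_zero)
        rw [add_assoc] at hc4
        exact (dvd_add_left h2).mp hc4
      exact not_dvd_of_gcd_eq_one P.hgcdab hq (hq'.dvd_of_dvd_pow (hq'.dvd_of_dvd_pow this)) hb
  · have hc' : (q : ℤ) ∣ P.a ^ P.p + P.b ^ P.p := by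
      rw [P.hFLT]; exact dvd_pow hc P.hp0
    have hab : (q : ℤ) ∣ P.a ^ P.p * P.b ^ P.p := by
      have h2 : (q : ℤ) ∣ (P.a ^ P.p + P.b ^ P.p) ^ 2 := dvd_pow hc' two_ne_zero
      have h3 : (P.a ^ P.p) ^ 2 + P.a ^ P.p * P.b ^ P.p + (P.b ^ P.p) ^ 2
          = (P.a ^ P.p + P.b ^ P.p) ^ 2 - P.a ^ P.p * P.b ^ P.p := by ring
      rw [h3] at hc4
      have := dvd_sub h2 hc4
      simpa using this
    rcases hq'.dvd_or_dvd hab with ha | hb
    · exact not_dvd_of_gcd_eq_one P.hgcdac hq (hq'.dvd_of_dvd_pow ha) hc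
    · exact not_dvd_of_gcd_eq_one P.hgcdbc hq (hq'.dvd_of_dvd_pow hb) hc

/-- Final wiring: exact-conductor-level modularity of an integral model whose bad primes
divide `abc` gives the statement S06. -/
theorem of_modularModel (P : FreyPackage) (W : WeierstrassCurve ℤ)
    (hW : W.IsIntegralModelOf P.freyCurve)
    (hbad : ∀ q : ℕ, q.Prime → (q : ℤ) ∣ W.Δ → (q : ℤ) ∣ P.a * P.b * P.c)
    (h : Mlc1IsModularModelOfExactConductorLevel W) :
    ∃ N : ℕ, P.IsConductorLevel N ∧ P.ModularRepOfLevel N := by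
  obtain ⟨N, hN, hsq, hiff, f, hf, hcoef⟩ := h
  obtain ⟨𝔪, h𝔪, hp𝔪⟩ := FLTPrelim.exists_maximalIdeal_natCast_prime_mem P.pp
  refine ⟨N, ⟨hN, hsq, fun q hq hqN => hbad q hq ((hiff q hq).mp hqN)⟩,
    f, W, 𝔪, hf, hW, h𝔪, hp𝔪, ?_⟩
  intro ℓ hℓ hgood hℓN _
  refine ⟨((W.apOfModel ℓ : ℤ) : integralClosure ℤ ℂ), ?_, ?_⟩
  · rw [hcoef ℓ hℓ hgood hℓN]
    simp
  · simp

/-- S06 from exact-conductor-level modularity of all semistable integral models. -/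
theorem of_semistable_modularity
    (H : ∀ W : WeierstrassCurve ℤ, W.Δ ≠ 0 → W.IsSemistableModel →
      Mlc1IsModularModelOfExactConductorLevel W)
    (P : FreyPackage) : ∃ N : ℕ, P.IsConductorLevel N ∧ P.ModularRepOfLevel N :=
  of_modularModel P P.freyCurveInt (freyCurveInt_isIntegralModelOf P) (freyCurveInt_bad P)
    (H _ (freyCurveInt_disc_ne_zero P) (freyCurveInt_semistable P))

end Fermat.Agent.S06.FreyModel
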